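/-
Program A (S42 / S29 / S30 / S31), adapter on the homomorphism side.

The Abel–Jacobi leaf of Program A is stated once, in the integral shape (R1): an additive map
`AJ : L(N) → J` on the lattice `L(N) = parabolicHoms ℤ (Gamma0 N) ℤ` whose kernel is exactly
`m • L(N)` and which intertwines the Hecke operators.  This file converts such a map into the
"mod `m`" shape used by the consumers: an INJECTIVE additive map

  `AJm : {parabolic, torsion-killing homs Γ₀(N) → ZMod m} → J`,   `m • AJm χ = 0`,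

again Hecke-equivariant, for EVERY modulus `m` (no primality, no coprimality to `6`).  The only
input is the landed LIFT theorem (`S41/H79/Lift.lean`): the reduction `L(N) → Hom(Γ₀(N), ZMod m)`
has kernel `m L(N)` and its image is the group of parabolic torsion-killing homomorphisms.
-/
import Mathlib
import Fermat.Agent.S41.H79.Lift
import Fermat.Agent.S16.H75.Gamma0Hecke
import Fermat.Agent.S41.H26.ParabolicHecke
import Fermat.Prelude.Def_ModularCurve_HeckeModule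

set_option autoImplicit false

open scoped MatrixGroups
open CongruenceSubgroup ModularCurve.Period
open Fermat.Agent.S16.H75 (heckeHom heckeHom_comp)

namespace Fermat.Agent.S42.H79

/-- The lattice `L(N)` of integral parabolic homomorphisms. -/
abbrev Lat (N : ℕ) : Submodule ℤ (Additive (Gamma0 N) →+ ℤ) := parabolicHoms ℤ (Gamma0 N) ℤ

/-- The group of parabolic homomorphisms `Γ₀(N) → ZMod m` which kill every element of finite
order. -/
def parTors (N m : ℕ) : AddSubgroup (Additive (Gamma0 N) →+ ZMod m) where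
  carrier := {χ | IsParabolicHom (Gamma0 N) χ ∧
    ∀ γ : Gamma0 N, IsOfFinOrder γ → χ (Additive.ofMul γ) = 0}
  zero_mem' := ⟨fun _ _ => rfl, fun _ _ => rfl⟩
  add_mem' := by
    rintro χ χ' ⟨h1, h2⟩ ⟨h1', h2'⟩
    refine ⟨fun γ hγ => ?_, fun γ hγ => ?_⟩
    · change χ (Additive.ofMul γ) + χ' (Additive.ofMul γ) = 0
      rw [h1 γ hγ, h1' γ hγ, add_zero]
    · change χ (Additive.ofMul γ) + χ' (Additive.ofMul γ) = 0
      rw [h2 γ hγ, h2' γ hγ, add_zero]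
  neg_mem' := by
    rintro χ ⟨h1, h2⟩
    refine ⟨fun γ hγ => ?_, fun γ hγ => ?_⟩
    · change -χ (Additive.ofMul γ) = 0
      rw [h1 γ hγ, neg_zero]
    · change -χ (Additive.ofMul γ) = 0
      rw [h2 γ hγ, neg_zero]

theorem mem_parTors_iff {N m : ℕ} (χ : Additive (Gamma0 N) →+ ZMod m) :
    χ ∈ parTors N m ↔ IsParabolicHom (Gamma0 N) χ ∧
      ∀ γ : Gamma0 N, IsOfFinOrder γ → χ (Additive.ofMul γ) = 0 := Iff.rfl

/-- Every element of `Hom(Γ, ZMod m)` is killed by `m`. -/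
theorem nsmul_hom_zmod_eq_zero {G : Type*} [AddZeroClass G] (m : ℕ) (χ : G →+ ZMod m) :
    m • χ = 0 := by
  ext g
  rw [AddMonoidHom.nsmul_apply, nsmul_eq_mul, ZMod.natCast_self, zero_mul,
    AddMonoidHom.zero_apply]

/-- The reduction of an integral parabolic homomorphism is parabolic and torsion-killing. -/
theorem cast_comp_mem_parTors {N : ℕ} (m : ℕ) {ψ : Additive (Gamma0 N) →+ ℤ}
    (hψ : ψ ∈ Lat N) : (Int.castAddHom (ZMod m)).comp ψ ∈ parTors N m :=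
  ⟨Fermat.Agent.S41.H79.isParabolicHom_comp _ hψ,
    fun γ hγ => Fermat.Agent.S41.H79.cast_apply_eq_zero_of_isOfFinOrder m ψ γ hγ⟩

/-- Reduction mod `m`: `L(N) → {parabolic torsion-killing homs to ZMod m}`. -/
def red (N m : ℕ) : ↥(Lat N) →+ ↥(parTors N m) where
  toFun ψ := ⟨(Int.castAddHom (ZMod m)).comp ψ.1, cast_comp_mem_parTors m ψ.2⟩
  map_zero' := by
    apply Subtype.ext
    ext γ
    simp
  map_add' ψ ψ' := by
    apply Subtype.ext
    ext γ
    simp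

@[simp] theorem red_apply_apply {N m : ℕ} (ψ : ↥(Lat N)) (γ : Additive (Gamma0 N)) :
    (red N m ψ : Additive (Gamma0 N) →+ ZMod m) γ = ((ψ.1 γ : ℤ) : ZMod m) := rfl

theorem coe_red {N m : ℕ} (ψ : ↥(Lat N)) :
    (red N m ψ : Additive (Gamma0 N) →+ ZMod m) = (Int.castAddHom (ZMod m)).comp ψ.1 := rfl

/-- **Surjectivity of the reduction** (the landed LIFT theorem). -/
theorem red_surjective (N : ℕ) [NeZero N] (m : ℕ) : Function.Surjective (red N m) := by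
  rintro ⟨χ, hχ1, hχ2⟩
  obtain ⟨ψ, hψ, h⟩ :=
    Fermat.Agent.S41.H79.exists_mem_parabolicHoms_int_lift N m χ hχ1 hχ2
  exact ⟨⟨ψ, hψ⟩, Subtype.ext h⟩

/-- **Kernel of the reduction** is `m • L(N)`. -/
theorem red_eq_zero_iff {N m : ℕ} (ψ : ↥(Lat N)) :
    red N m ψ = 0 ↔ ∃ φ : ↥(Lat N), ψ = m • φ := by
  constructor
  · intro h
    have h0 : (Int.castAddHom (ZMod m)).comp ψ.1 = 0 := congrArg Subtype.val h
    obtain ⟨φ, hφ, hψ⟩ :=
      Fermat.Agent.S41.H79.mem_nsmul_parabolicHoms_of_cast_eq_zero N m ψ.1 ψ.2 h0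
    exact ⟨⟨φ, hφ⟩, Subtype.ext hψ⟩
  · rintro ⟨φ, rfl⟩
    rw [map_nsmul]
    apply Subtype.ext
    exact nsmul_hom_zmod_eq_zero m _

/-- The Hecke operator `heckeHom N ℓ ℤ` on the lattice `L(N)`. -/
noncomputable def heckeLat (N : ℕ) (ℓ : Nat.Primes) : ↥(Lat N) →+ ↥(Lat N) where
  toFun ψ := ⟨heckeHom N ℓ ℤ ψ.1, Fermat.Agent.S41.H26.heckeHom_mem_parabolicHoms N ℓ ψ.2⟩
  map_zero' := by
    apply Subtype.ext
    simp
  map_add' ψ ψ' := by
    apply Subtype.ext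
    simp

@[simp] theorem coe_heckeLat (N : ℕ) (ℓ : Nat.Primes) (ψ : ↥(Lat N)) :
    (heckeLat N ℓ ψ : Additive (Gamma0 N) →+ ℤ) = heckeHom N ℓ ℤ ψ.1 := rfl

/-- `heckeHom N ℓ (ZMod m)` preserves the parabolic torsion-killing homomorphisms. -/
theorem heckeHom_mem_parTors (N : ℕ) [NeZero N] (m : ℕ) (ℓ : Nat.Primes)
    {χ : Additive (Gamma0 N) →+ ZMod m} (hχ : χ ∈ parTors N m) :
    heckeHom N ℓ (ZMod m) χ ∈ parTors N m := by
  obtain ⟨ψ, hψ⟩ := red_surjective N m ⟨χ, hχ⟩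
  have h1 : χ = (Int.castAddHom (ZMod m)).comp ψ.1 := by
    rw [← coe_red, hψ]
  rw [h1, heckeHom_comp]
  exact cast_comp_mem_parTors m (heckeLat N ℓ ψ).2

/-- The Hecke operator `heckeHom N ℓ (ZMod m)` on the parabolic torsion-killing homomorphisms. -/
noncomputable def heckeParTors (N : ℕ) [NeZero N] (m : ℕ) (ℓ : Nat.Primes) :
    ↥(parTors N m) →+ ↥(parTors N m) where
  toFun χ := ⟨heckeHom N ℓ (ZMod m) χ.1, heckeHom_mem_parTors N m ℓ χ.2⟩
  map_zero' := by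
    apply Subtype.ext
    simp
  map_add' χ χ' := by
    apply Subtype.ext
    simp

@[simp] theorem coe_heckeParTors (N : ℕ) [NeZero N] (m : ℕ) (ℓ : Nat.Primes)
    (χ : ↥(parTors N m)) :
    (heckeParTors N m ℓ χ : Additive (Gamma0 N) →+ ZMod m) = heckeHom N ℓ (ZMod m) χ.1 := rfl

/-- Reduction commutes with the Hecke operators. -/
theorem red_heckeLat (N : ℕ) [NeZero N] (m : ℕ) (ℓ : Nat.Primes) (ψ : ↥(Lat N)) :
    red N m (heckeLat N ℓ ψ) = heckeParTors N m ℓ (red N m ψ) := by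
  apply Subtype.ext
  rw [coe_heckeParTors, coe_red, coe_red, coe_heckeLat, heckeHom_comp]

/-- The Hecke operators commute on the parabolic torsion-killing homomorphisms (from the landed
commutation on `L(N)`). -/
theorem heckeParTors_comm (N : ℕ) [NeZero N] (m : ℕ) (ℓ ℓ' : Nat.Primes)
    (hcomm : ∀ ψ : ↥(Lat N), heckeLat N ℓ (heckeLat N ℓ' ψ) = heckeLat N ℓ' (heckeLat N ℓ ψ))
    (χ : ↥(parTors N m)) :
    heckeParTors N m ℓ (heckeParTors N m ℓ' χ) = heckeParTors N m ℓ' (heckeParTors N m ℓ χ) := by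
  obtain ⟨ψ, rfl⟩ := red_surjective N m χ
  rw [← red_heckeLat, ← red_heckeLat, ← red_heckeLat, ← red_heckeLat, hcomm]

/-- **The adapter (R1) ⟹ mod `m`.**  An additive map `AJ : L(N) → J` with kernel `m • L(N)`
factors through the reduction as an INJECTIVE additive map `AJm` on the parabolic torsion-killing
homomorphisms `Γ₀(N) → ZMod m`; its image is killed by `m`; and every operator `T` of `J` which
`AJ` intertwines with `heckeHom N ℓ ℤ` is intertwined by `AJm` with `heckeHom N ℓ (ZMod m)`. -/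
theorem exists_AJ_mod (N : ℕ) [NeZero N] (m : ℕ) {J : Type*} [AddCommGroup J]
    (AJ : ↥(Lat N) →+ J) (hker : ∀ ψ : ↥(Lat N), AJ ψ = 0 ↔ ∃ φ : ↥(Lat N), ψ = m • φ) :
    ∃ AJm : ↥(parTors N m) →+ J, Function.Injective AJm ∧
      (∀ ψ : ↥(Lat N), AJm (red N m ψ) = AJ ψ) ∧
      (∀ χ : ↥(parTors N m), m • AJm χ = 0) ∧
      ∀ (ℓ : Nat.Primes) (T : J →+ J),
        (∀ ψ : ↥(Lat N), T (AJ ψ) = AJ (heckeLat N ℓ ψ)) →
        ∀ χ : ↥(parTors N m), T (AJm χ) = AJm (heckeParTors N m ℓ χ) := by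
  classical
  have hsurj := red_surjective N m
  have hle : (red N m).ker ≤ AJ.ker := by
    intro ψ hψ
    rw [AddMonoidHom.mem_ker] at hψ ⊢
    exact (hker ψ).2 ((red_eq_zero_iff ψ).1 hψ)
  let AJm : ↥(parTors N m) →+ J := (red N m).liftOfSurjective hsurj ⟨AJ, hle⟩
  have hfac : ∀ ψ : ↥(Lat N), AJm (red N m ψ) = AJ ψ := fun ψ =>
    AddMonoidHom.liftOfRightInverse_comp_apply (red N m) _
      (Function.rightInverse_surjInv hsurj) ⟨AJ, hle⟩ ψ
  refine ⟨AJm, ?_, hfac, ?_, ?_⟩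
  · rw [injective_iff_map_eq_zero]
    intro χ hχ
    obtain ⟨ψ, rfl⟩ := hsurj χ
    rw [hfac] at hχ
    exact (red_eq_zero_iff ψ).2 ((hker ψ).1 hχ)
  · intro χ
    rw [← map_nsmul]
    have h0 : m • χ = 0 := Subtype.ext (nsmul_hom_zmod_eq_zero m χ.1)
    rw [h0, map_zero]
  · intro ℓ T hT χ
    obtain ⟨ψ, rfl⟩ := hsurj χ
    rw [hfac, hT, ← red_heckeLat, hfac]

/-- **(R1) ⟹ the consumer's AJ leaf, abstract form.**  Same as `exists_AJ_mod`, with the
domain given as an `AddSubgroup` containing all parabolic torsion-killing homomorphisms and the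
equivariance stated with an arbitrary membership proof, for a family of operators `T ℓ` and a
set `P` of "good" primes. -/
theorem exists_AJ_leaf (N : ℕ) [NeZero N] (m : ℕ) {J : Type*} [AddCommGroup J]
    (T : Nat.Primes → J →+ J) (P : Nat.Primes → Prop)
    (AJ : ↥(Lat N) →+ J) (hker : ∀ ψ : ↥(Lat N), AJ ψ = 0 ↔ ∃ φ : ↥(Lat N), ψ = m • φ)
    (hT : ∀ ℓ : Nat.Primes, P ℓ → ∀ ψ : ↥(Lat N), T ℓ (AJ ψ) = AJ (heckeLat N ℓ ψ)) :
    ∃ (H : AddSubgroup (Additive (Gamma0 N) →+ ZMod m)) (AJm : H →+ J),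
      (∀ χ : Additive (Gamma0 N) →+ ZMod m, IsParabolicHom (Gamma0 N) χ →
        (∀ γ : Gamma0 N, IsOfFinOrder γ → χ (Additive.ofMul γ) = 0) → χ ∈ H) ∧
      Function.Injective AJm ∧ (∀ χ : H, m • AJm χ = 0) ∧
      ∀ ℓ : Nat.Primes, P ℓ → ∀ (χ : H) (h : heckeHom N ℓ (ZMod m) χ ∈ H),
        T ℓ (AJm χ) = AJm ⟨heckeHom N ℓ (ZMod m) χ, h⟩ := by
  obtain ⟨AJm, hinj, -, hm, heq⟩ := exists_AJ_mod N m AJ hker
  refine ⟨parTors N m, AJm, fun χ h1 h2 => ⟨h1, h2⟩, hinj, hm, fun ℓ hℓ χ h => ?_⟩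
  exact heq ℓ (T ℓ) (hT ℓ hℓ) χ

open ModularCurve in
/-- **(R1) ⟹ the consumer's AJ leaf for `JZero N`**: from the integral Abel–Jacobi statement
(kernel `m • L(N)`, equivariance for `ℓ ∤ N`) to the mod-`m` statement in the shape consumed by
the top of S42 / S29 (domain `⊇` parabolic torsion-killing homs, injective, `m`-torsion image,
equivariance for the good primes). -/
theorem exists_AJ_leaf_JZero (N : ℕ) [NeZero N] (m : ℕ)
    (hR1 : ∃ AJ : ↥(Lat N) →+ JZero N,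
      (∀ ψ : ↥(Lat N), AJ ψ = 0 ↔ ∃ φ : ↥(Lat N), ψ = m • φ) ∧
      ∀ ℓ : Nat.Primes, ¬ (ℓ : ℕ) ∣ N → ∀ ψ : ↥(Lat N),
        heckeOperatorBar N ℓ (AJ ψ) = AJ (heckeLat N ℓ ψ)) :
    ∃ (H : AddSubgroup (Additive (Gamma0 N) →+ ZMod m)) (AJ : H →+ JZero N),
      (∀ χ : Additive (Gamma0 N) →+ ZMod m, IsParabolicHom (Gamma0 N) χ →
        (∀ γ : Gamma0 N, IsOfFinOrder γ → χ (Additive.ofMul γ) = 0) → χ ∈ H) ∧
      Function.Injective AJ ∧ (∀ χ : H, m • AJ χ = 0) ∧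
      ∀ ℓ : Nat.Primes, ¬ (ℓ : ℕ) ∣ N * m → ∀ (χ : H) (h : heckeHom N ℓ (ZMod m) χ ∈ H),
        heckeOperatorBar N ℓ (AJ χ) = AJ ⟨heckeHom N ℓ (ZMod m) χ, h⟩ := by
  obtain ⟨AJ, hker, hT⟩ := hR1
  obtain ⟨H, AJm, hH, hinj, hm, heq⟩ :=
    exists_AJ_leaf N m (fun ℓ => (heckeOperatorBar N ℓ).toAddMonoidHom)
      (fun ℓ => ¬ (ℓ : ℕ) ∣ N) AJ hker (fun ℓ hℓ ψ => hT ℓ hℓ ψ)
  refine ⟨H, AJm, hH, hinj, hm, fun ℓ hℓ χ h => ?_⟩
  exact heq ℓ (fun hdvd => hℓ (Dvd.dvd.mul_right hdvd m)) χ h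

end Fermat.Agent.S42.H79
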