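/-
Program A (S42 / S29 / S30 / S31): the converse adapter, mod `m` ⟹ (R1).

The skeleton of the Abel–Jacobi leaf (`S42/H96/Skeleton.lean`) produces an INJECTIVE
Hecke-equivariant additive map on the parabolic torsion-killing homomorphisms
`Γ₀(N) → ZMod m` (`H96.Hp N m`, the same subgroup as `H79.parTors N m`).  The consumers of
S30 / S31 use the integral shape (R1) of lead note 17: an additive map on the lattice
`L(N) = parabolicHoms ℤ (Gamma0 N) ℤ` with kernel exactly `m • L(N)`.  Composing with the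
reduction `red N m : L(N) → parTors N m` (surjective with kernel `m L(N)` by the landed LIFT
theorem) converts the first shape into the second.
-/
import Mathlib
import Fermat.Agent.S42.H79.ModAdapter

set_option autoImplicit false

open scoped MatrixGroups
open CongruenceSubgroup ModularCurve.Period
open Fermat.Agent.S16.H75 (heckeHom heckeHom_comp)

namespace Fermat.Agent.S42.H79

/-- **mod `m` ⟹ (R1), abstract form.**  An injective additive map on the parabolic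
torsion-killing homomorphisms `Γ₀(N) → ZMod m`, composed with the reduction, is an additive map
on `L(N)` with kernel exactly `m • L(N)`; Hecke equivariance is inherited. -/
theorem exists_R1_of_mod (N : ℕ) [NeZero N] (m : ℕ) {J : Type*} [AddCommGroup J]
    (T : Nat.Primes → J →+ J) (P : Nat.Primes → Prop)
    (AJm : ↥(parTors N m) →+ J) (hinj : Function.Injective AJm)
    (hT : ∀ ℓ : Nat.Primes, P ℓ → ∀ (χ : ↥(parTors N m))
      (h : heckeHom N ℓ (ZMod m) (χ : Additive (Gamma0 N) →+ ZMod m) ∈ parTors N m),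
      T ℓ (AJm χ) = AJm ⟨heckeHom N ℓ (ZMod m) χ, h⟩) :
    ∃ AJ : ↥(Lat N) →+ J, (∀ ψ : ↥(Lat N), AJ ψ = AJm (red N m ψ)) ∧
      (∀ ψ : ↥(Lat N), AJ ψ = 0 ↔ ∃ φ : ↥(Lat N), ψ = m • φ) ∧
      ∀ ℓ : Nat.Primes, P ℓ → ∀ ψ : ↥(Lat N), T ℓ (AJ ψ) = AJ (heckeLat N ℓ ψ) := by
  refine ⟨AJm.comp (red N m), fun ψ => rfl, fun ψ => ?_, fun ℓ hℓ ψ => ?_⟩
  · rw [AddMonoidHom.comp_apply, map_eq_zero_iff AJm hinj]
    exact red_eq_zero_iff ψ
  · rw [AddMonoidHom.comp_apply, AddMonoidHom.comp_apply, red_heckeLat]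
    exact hT ℓ hℓ (red N m ψ) (heckeHom_mem_parTors N m ℓ (red N m ψ).2)

open ModularCurve in
/-- **mod `m` ⟹ (R1) for `JZero N`**, in the shape of lead note 17 (`exists_AJ_pow`), for an
arbitrary modulus `m` (take `m = p ^ n`). -/
theorem exists_R1_JZero_of_mod (N : ℕ) [NeZero N] (m : ℕ)
    (hmod : ∃ AJm : ↥(parTors N m) →+ JZero N, Function.Injective AJm ∧
      ∀ ℓ : Nat.Primes, ¬ (ℓ : ℕ) ∣ N → ∀ (χ : ↥(parTors N m))
        (h : heckeHom N ℓ (ZMod m) (χ : Additive (Gamma0 N) →+ ZMod m) ∈ parTors N m),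
        heckeOperatorBar N ℓ (AJm χ) = AJm ⟨heckeHom N ℓ (ZMod m) χ, h⟩) :
    ∃ AJ : ↥(Lat N) →+ JZero N,
      (∀ ψ : ↥(Lat N), AJ ψ = 0 ↔ ∃ φ : ↥(Lat N), ψ = m • φ) ∧
      ∀ ℓ : Nat.Primes, ¬ (ℓ : ℕ) ∣ N → ∀ ψ : ↥(Lat N),
        heckeOperatorBar N ℓ (AJ ψ) = AJ (heckeLat N ℓ ψ) := by
  obtain ⟨AJm, hinj, hT⟩ := hmod
  obtain ⟨AJ, -, hker, heq⟩ :=
    exists_R1_of_mod N m (fun ℓ => (heckeOperatorBar N ℓ).toAddMonoidHom)
      (fun ℓ => ¬ (ℓ : ℕ) ∣ N) AJm hinj (fun ℓ hℓ χ h => hT ℓ hℓ χ h)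
  exact ⟨AJ, hker, fun ℓ hℓ ψ => heq ℓ hℓ ψ⟩

end Fermat.Agent.S42.H79
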